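import Mathlib
import Fermat.Agent.G.FF.Main

/-!
# Program G, package G/Lvl (raising the level `N → N a` on Jacobians) : DEFINITIONS

Owner: helper6.  Namespace `Fermat.Agent.G`, prefix `glv`.

PURPOSE (the primes `ℓ = 2, 3` of S37): for `ℓ ∈ {2, 3}`, `a = 5 - ℓ`, `a ∤ N`, the place reduction of
`X₀(N)` at `ℓ` is out of reach of the tame theory (the point over `j̄ = 0 = 1728` is wild), but
the reduction of `X₀(N a)` is available (Hauptmodul charts).  S37 only needs SOME additive map
`red : J₀(N) → Jt` killing inertia and the Eichler–Shimura expressions and injective on `p`-power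
torsion (`g37_specializationExists_of_red`); we take `red = reductionModL 𝔸 (N a) ∘ α^*`.

* `glvPullDiv N a : Div(F_ℚ̄(N)) →+ Div(F_ℚ̄(N a))` : pullback of divisors along the inclusion
  `α = heckeAlphaBar ℚ̄ N a : F_ℚ̄(N) → F_ℚ̄(N a)`;
* `glvPushDiv N a` : pushforward of divisors along `α`;
* `glvPull N a : J₀(N) →+ J₀(N a)` : the induced map on `Pic⁰`.
-/

set_option autoImplicit false
set_option linter.unusedSectionVars false

noncomputable section

namespace Fermat.Agent.G

open ModularCurve AlgebraicCurve Fermat.Agent.S24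

local notation "Qb" => AlgebraicClosure ℚ

section Defs

variable (N a : ℕ) [NeZero N] [NeZero a]

/-- the fundamental identity `∑ e = [F(N a) : F(N)]` along `α`. -/
theorem glv_alpha_fundamentalIdentity :
    haveI := gff_hasPrincipalDivisors (N * a)
    FundamentalIdentityAlong Qb (heckeAlphaBar Qb N a) (gff_alpha_integral N a) :=
  haveI := gff_hasPrincipalDivisors (N * a)
  gffa_along_fundamentalIdentity (heckeAlphaBar Qb N a) (gff_alpha_finite N a)
    (gff_alpha_integral N a) (isSepGen_jBar N)

/-- pullback of divisors along `F_ℚ̄(N) ⊆ F_ℚ̄(N a)` : `P ↦ ∑_{P' ∣ P} e(P'|P) P'`. -/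
def glvPullDiv :
    Divisor Qb (modularFunctionFieldBar N) →+ Divisor Qb (modularFunctionFieldBar (N * a)) :=
  haveI := gff_hasPrincipalDivisors (N * a)
  Divisor.pullbackAlong (heckeAlphaBar Qb N a) (gff_alpha_integral N a)

/-- pushforward of divisors along `F_ℚ̄(N) ⊆ F_ℚ̄(N a)` : `P' ↦ P' ∩ F_ℚ̄(N)`. -/
def glvPushDiv :
    Divisor Qb (modularFunctionFieldBar (N * a)) →+ Divisor Qb (modularFunctionFieldBar N) :=
  Divisor.pushforwardAlong (heckeAlphaBar Qb N a) (gff_alpha_integral N a)

theorem glvPullDiv_mem_degZero {D : Divisor Qb (modularFunctionFieldBar N)}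
    (hD : D ∈ Divisor.degZero (K := Qb) (F := modularFunctionFieldBar N)) :
    glvPullDiv N a D ∈ Divisor.degZero (K := Qb) (F := modularFunctionFieldBar (N * a)) :=
  haveI := gff_hasPrincipalDivisors (N * a)
  Divisor.pullbackAlong_mem_degZero (heckeAlphaBar Qb N a) (gff_alpha_integral N a)
    (glv_alpha_fundamentalIdentity N a) hD

theorem glvPullDiv_mem_principal {D : Divisor Qb (modularFunctionFieldBar N)}
    (hD : D ∈ Divisor.principal (K := Qb) (F := modularFunctionFieldBar N)) :
    glvPullDiv N a D ∈ Divisor.principal (K := Qb) (F := modularFunctionFieldBar (N * a)) :=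
  haveI := gff_hasPrincipalDivisors (N * a)
  Divisor.isPrincipal_pullbackAlong (heckeAlphaBar Qb N a) (gff_alpha_integral N a) hD

/-- the pullback on divisors of degree `0` -/
def glvPullDegZero :
    Divisor.degZero (K := Qb) (F := modularFunctionFieldBar N) →+
      Divisor.degZero (K := Qb) (F := modularFunctionFieldBar (N * a)) :=
  ((glvPullDiv N a).domRestrict _).codRestrict _ fun D => glvPullDiv_mem_degZero N a D.2

@[simp]
theorem coe_glvPullDegZero (D : Divisor.degZero (K := Qb) (F := modularFunctionFieldBar N)) :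
    (glvPullDegZero N a D : Divisor Qb (modularFunctionFieldBar (N * a))) =
      glvPullDiv N a (D : Divisor Qb (modularFunctionFieldBar N)) :=
  rfl

/-- THE LEVEL-RAISING MAP `α^* : J₀(N) → J₀(N a)`. -/
def glvPull : JZero N →+ JZero (N * a) :=
  QuotientAddGroup.map _ _ (glvPullDegZero N a) (by
    rintro ⟨D, hD0⟩ hD
    simp only [AddSubgroup.mem_addSubgroupOf] at hD ⊢
    exact glvPullDiv_mem_principal N a hD)

theorem glvPull_mk (D : Divisor.degZero (K := Qb) (F := modularFunctionFieldBar N)) :
    glvPull N a (Pic0.mk D) = Pic0.mk (glvPullDegZero N a D) :=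
  rfl

end Defs

end Fermat.Agent.G
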