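import Mathlib
import Fermat.Agent.G.Lvl.Defs
import Fermat.Agent.G.Conj.Deg

/-!
# Program G, package G/Lvl, leaf (LV3) : `[F(N a) : F(N)] = a + 1` for a prime `a ∤ N`
(`gcjd_finrank` of `G/Conj/Deg.lean`).
-/

set_option autoImplicit false
set_option linter.unusedSectionVars false

noncomputable section

namespace Fermat.Agent.G

open ModularCurve AlgebraicCurve Fermat.Agent.S24

local notation "Qb" => AlgebraicClosure ℚ

variable (N a : ℕ) [NeZero N] [NeZero a]

/-- (LV3) the degree of `X₀(N a) → X₀(N)` for a prime `a ∤ N`. -/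
theorem glv_finrank (ha : a.Prime) (haN : ¬ a ∣ N) :
    finrankAlong Qb (heckeAlphaBar Qb N a) = a + 1 := by
  have : Fact a.Prime := ⟨ha⟩
  exact gcjd_finrank N haN

end Fermat.Agent.G
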