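import Mathlib
import Fermat.Agent.G.Lvl.Defs
import Fermat.Agent.G.Asm.HeckeGalois
import Fermat.Agent.G.Kron.Main
import Fermat.Agent.G.Conj.Series
import Fermat.Agent.S18

/-!
# Program G, package G/Lvl, leaf (LV5), auxiliary file (prefix `glvh_`)

`α^* T_ℓ = T_ℓ α^*` on `Pic⁰`, GIVEN (LV4) as an explicit hypothesis (the Hecke operator on
FUNCTIONS does not depend on the level).  Vanishing principle `ghrm_vanish` applied to
`Ψ = α^* ∘ T_ℓ^{(N)} - T_ℓ^{(N a)} ∘ α^*` on divisors: `Ψ` kills principal divisors (LV4 +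
`gff_correspondence_ord` / `gff_pullbackAlong_ord`) and is bounded on single places (K5a +
the fundamental identity along `α`).
-/

set_option autoImplicit false
set_option linter.unusedSectionVars false
set_option linter.unusedVariables false
set_option synthInstance.maxHeartbeats 400000

noncomputable section

namespace Fermat.Agent.G

open ModularCurve AlgebraicCurve IsLocalRing Fermat.Agent.S24

local notation "Qb" => AlgebraicClosure ℚ

section Aux

variable (N a : ℕ) [NeZero N] [NeZero a]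

/-- the pullback of an effective divisor along `α` is effective. -/
theorem glvh_pull_nonneg (D : Divisor Qb (modularFunctionFieldBar N)) (hD : 0 ≤ D) :
    0 ≤ glvPullDiv N a D := by
  haveI := gff_hasPrincipalDivisors (N * a)
  show 0 ≤ Divisor.pullbackAlong (heckeAlphaBar Qb N a) (gff_alpha_integral N a) D
  letI := algebraAlong (heckeAlphaBar Qb N a)
  haveI := isScalarTower_along (heckeAlphaBar Qb N a)
  haveI := isIntegral_along (heckeAlphaBar Qb N a) (gff_alpha_integral N a)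
  exact ghrn_pullback_nonneg D hD

/-- (A, single place) `α^* P` is an effective divisor of degree `[F(N a) : F(N)]`. -/
theorem glvh_norm1_pull_single_le (P : Place Qb (modularFunctionFieldBar N)) :
    ghrNorm1 (glvPullDiv N a (Finsupp.single P 1)) ≤
      finrankAlong Qb (heckeAlphaBar Qb N a) := by
  haveI := gff_hasPrincipalDivisors (N * a)
  have hdeg : ∀ Q : Place Qb (modularFunctionFieldBar (N * a)), Q.deg = 1 :=
    fun Q => (isSepGen_jBar (N * a)).deg_eq_one Q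
  have hdegN : ∀ Q : Place Qb (modularFunctionFieldBar N), Q.deg = 1 :=
    fun Q => (isSepGen_jBar N).deg_eq_one Q
  have hE : 0 ≤ glvPullDiv N a (Finsupp.single P 1) := by
    refine glvh_pull_nonneg N a _ ?_
    rw [Finsupp.le_def]
    intro Q
    rw [Finsupp.coe_zero, Pi.zero_apply]
    exact Finsupp.single_nonneg.2 zero_le_one Q
  have h1 := ghrb_degree_eq_norm1 hdeg _ hE
  have h2 : Divisor.degree (glvPullDiv N a (Finsupp.single P 1)) =
      (finrankAlong Qb (heckeAlphaBar Qb N a) : ℤ) * Divisor.degree (Finsupp.single P 1) :=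
    Divisor.degree_pullbackAlong (heckeAlphaBar Qb N a) (gff_alpha_integral N a)
      (glv_alpha_fundamentalIdentity N a) _
  rw [Divisor.degree_single, hdegN, Nat.cast_one, mul_one, mul_one] at h2
  rw [h1] at h2
  exact le_of_eq (by exact_mod_cast h2)

/-- (A) `‖α^* D‖₁ ≤ ‖D‖₁ [F(N a) : F(N)]`. -/
theorem glvh_norm1_pull_le (D : Divisor Qb (modularFunctionFieldBar N)) :
    ghrNorm1 (glvPullDiv N a D) ≤ ghrNorm1 D * finrankAlong Qb (heckeAlphaBar Qb N a) :=
  ghrb_norm1_map_le (glvPullDiv N a) _ (glvh_norm1_pull_single_le N a) D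

/-- (B) `‖T_ℓ D‖₁ ≤ ‖D‖₁ [F(M ℓ) : β F(M)]`. -/
theorem glvh_norm1_hecke_le (M ℓ : ℕ) [NeZero M] [NeZero ℓ] (hℓ : ℓ.Prime)
    (hα : HeckeAlphaBarIntegral Qb M ℓ) (hβ : HeckeBetaBarIntegral Qb M ℓ)
    [HasPrincipalDivisors Qb (modularFunctionFieldBar (M * ℓ))]
    (D : Divisor Qb (modularFunctionFieldBar M)) :
    ghrNorm1 (heckeDivBar hα hβ D) ≤ ghrNorm1 D * finrankAlong Qb (heckeBetaBar Qb M ℓ) :=
  ghrb_norm1_map_le (heckeDivBar hα hβ) _ (ghr_norm1_heckeDiv_single_le M ℓ hℓ hα hβ) D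

/-- the Hecke correspondence on the divisor of a function is the divisor of `gHeckeFun`. -/
theorem glvh_hecke_ord (M ℓ : ℕ) [NeZero M] [NeZero ℓ] (hℓ : ℓ.Prime)
    (hα : HeckeAlphaBarIntegral Qb M ℓ) (hβ : HeckeBetaBarIntegral Qb M ℓ)
    [HasPrincipalDivisors Qb (modularFunctionFieldBar (M * ℓ))]
    (E : Divisor Qb (modularFunctionFieldBar M)) (g : modularFunctionFieldBar M) (hg : g ≠ 0)
    (hE : ∀ v : Place Qb (modularFunctionFieldBar M), E v = v.ord g)
    (v : Place Qb (modularFunctionFieldBar M)) :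
    heckeDivBar hα hβ E v = v.ord (gHeckeFun M ℓ g) := by
  obtain ⟨hα', hβ', hP, hfin, hFI, hN⟩ := gff_heckeInputs M ℓ hℓ
  have h := gff_correspondence_ord (heckeBetaBar Qb M ℓ) (heckeAlphaBar Qb M ℓ) hβ hα hfin hN E 1
    g hg (fun v => by rw [one_mul, hE]) v
  rw [one_mul] at h
  exact h

end Aux

section Main

variable (N a : ℕ) [NeZero N] [NeZero a]

/-- `α^* T_ℓ - T_ℓ α^*` kills principal divisors, by (LV4). -/
theorem glvh_psi_principal {ℓ : ℕ} [NeZero ℓ] (hℓ : ℓ.Prime)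
    (hLV4 : ∀ f : modularFunctionFieldBar N,
      gHeckeFun (N * a) ℓ (heckeAlphaBar Qb N a f) = heckeAlphaBar Qb N a (gHeckeFun N ℓ f))
    (hα : HeckeAlphaBarIntegral Qb N ℓ) (hβ : HeckeBetaBarIntegral Qb N ℓ)
    [HasPrincipalDivisors Qb (modularFunctionFieldBar (N * ℓ))]
    (hα' : HeckeAlphaBarIntegral Qb (N * a) ℓ) (hβ' : HeckeBetaBarIntegral Qb (N * a) ℓ)
    [HasPrincipalDivisors Qb (modularFunctionFieldBar (N * a * ℓ))]
    (D : Divisor Qb (modularFunctionFieldBar N))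
    (hD : D ∈ Divisor.principal (K := Qb) (F := modularFunctionFieldBar N)) :
    glvPullDiv N a (heckeDivBar hα hβ D) = heckeDivBar hα' hβ' (glvPullDiv N a D) := by
  haveI := gff_hasPrincipalDivisors (N * a)
  obtain ⟨f, hf, hDf⟩ := hD
  have hαf : heckeAlphaBar Qb N a f ≠ 0 := (map_ne_zero (heckeAlphaBar Qb N a)).mpr hf
  ext w
  have hL : glvPullDiv N a (heckeDivBar hα hβ D) w =
      w.ord (heckeAlphaBar Qb N a (gHeckeFun N ℓ f)) :=
    gff_pullbackAlong_ord (heckeAlphaBar Qb N a) (gff_alpha_integral N a) _ _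
      (fun v => glvh_hecke_ord N ℓ hℓ hα hβ D f hf hDf v) w
  have hpull : ∀ w' : Place Qb (modularFunctionFieldBar (N * a)),
      glvPullDiv N a D w' = w'.ord (heckeAlphaBar Qb N a f) := fun w' =>
    gff_pullbackAlong_ord (heckeAlphaBar Qb N a) (gff_alpha_integral N a) D f hDf w'
  have hR := glvh_hecke_ord (N * a) ℓ hℓ hα' hβ' (glvPullDiv N a D) _ hαf hpull w
  rw [hL, hR, hLV4]

/-- `α^* T_ℓ = T_ℓ α^*` on divisors of degree `0`. -/
theorem glvh_pull_hecke_div {ℓ : ℕ} [NeZero ℓ] (hℓ : ℓ.Prime)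
    (hLV4 : ∀ f : modularFunctionFieldBar N,
      gHeckeFun (N * a) ℓ (heckeAlphaBar Qb N a f) = heckeAlphaBar Qb N a (gHeckeFun N ℓ f))
    (hα : HeckeAlphaBarIntegral Qb N ℓ) (hβ : HeckeBetaBarIntegral Qb N ℓ)
    [HasPrincipalDivisors Qb (modularFunctionFieldBar (N * ℓ))]
    (hα' : HeckeAlphaBarIntegral Qb (N * a) ℓ) (hβ' : HeckeBetaBarIntegral Qb (N * a) ℓ)
    [HasPrincipalDivisors Qb (modularFunctionFieldBar (N * a * ℓ))]
    (D : Divisor Qb (modularFunctionFieldBar N))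
    (hD : D ∈ Divisor.degZero (K := Qb) (F := modularFunctionFieldBar N)) :
    glvPullDiv N a (heckeDivBar hα hβ D) = heckeDivBar hα' hβ' (glvPullDiv N a D) := by
  have key := ghrm_vanish N
    ((glvPullDiv N a).comp (heckeDivBar hα hβ) - (heckeDivBar hα' hβ').comp (glvPullDiv N a))
    (fun E hE => by
      show glvPullDiv N a (heckeDivBar hα hβ E) - heckeDivBar hα' hβ' (glvPullDiv N a E) = 0
      rw [glvh_psi_principal N a hℓ hLV4 hα hβ hα' hβ' E hE, sub_self])
    (finrankAlong Qb (heckeBetaBar Qb N ℓ) * finrankAlong Qb (heckeAlphaBar Qb N a) +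
      finrankAlong Qb (heckeAlphaBar Qb N a) * finrankAlong Qb (heckeBetaBar Qb (N * a) ℓ))
    (fun P => by
      show ghrNorm1 (glvPullDiv N a (heckeDivBar hα hβ (Finsupp.single P (1 : ℤ))) -
        heckeDivBar hα' hβ' (glvPullDiv N a (Finsupp.single P (1 : ℤ)))) ≤ _
      refine (ghrm_norm1_sub_le _ _).trans (add_le_add ?_ ?_)
      · exact (glvh_norm1_pull_le N a _).trans
          (Nat.mul_le_mul_right _ (ghr_norm1_heckeDiv_single_le N ℓ hℓ hα hβ P))
      · exact (glvh_norm1_hecke_le (N * a) ℓ hℓ hα' hβ' _).trans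
          (Nat.mul_le_mul_right _ (glvh_norm1_pull_single_le N a P))) D hD
  exact sub_eq_zero.mp key

/-- (LV5) from (LV4). -/
theorem glvh_pull_hecke_of {ℓ : ℕ} (hℓ : ℓ.Prime)
    (hLV4 : haveI : NeZero ℓ := ⟨hℓ.ne_zero⟩
      ∀ f : modularFunctionFieldBar N,
        gHeckeFun (N * a) ℓ (heckeAlphaBar Qb N a f) = heckeAlphaBar Qb N a (gHeckeFun N ℓ f))
    (x : JZero N) :
    glvPull N a (heckeOperatorBar N ⟨ℓ, hℓ⟩ x) =
      heckeOperatorBar (N * a) ⟨ℓ, hℓ⟩ (glvPull N a x) := by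
  haveI : NeZero ℓ := ⟨hℓ.ne_zero⟩
  obtain ⟨hα, hβ, hP, hfin, hFI, hN⟩ := gff_heckeInputs N ℓ hℓ
  obtain ⟨hα', hβ', hP', hfin', hFI', hN'⟩ := gff_heckeInputs (N * a) ℓ hℓ
  haveI := hP
  haveI := hP'
  obtain ⟨D, rfl⟩ := Pic0.mk_surjective x
  have hT : heckeOperatorBar N ⟨ℓ, hℓ⟩ (Pic0.mk D) =
      Pic0.mk (Pic0.degZeroCorrespondence (heckeBetaBar Qb N ℓ) (heckeAlphaBar Qb N ℓ) hβ hα hFI
        D) := by
    rw [heckeOperatorBar_apply]
    show heckeOperatorAlong Qb N ℓ (Pic0.mk _) = _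
    rw [heckeOperatorAlong_eq hα hβ hFI hfin hN]
    rfl
  have hT' : heckeOperatorBar (N * a) ⟨ℓ, hℓ⟩ (Pic0.mk (glvPullDegZero N a D)) =
      Pic0.mk (Pic0.degZeroCorrespondence (heckeBetaBar Qb (N * a) ℓ)
        (heckeAlphaBar Qb (N * a) ℓ) hβ' hα' hFI' (glvPullDegZero N a D)) := by
    rw [heckeOperatorBar_apply]
    show heckeOperatorAlong Qb (N * a) ℓ (Pic0.mk _) = _
    rw [heckeOperatorAlong_eq hα' hβ' hFI' hfin' hN']
    rfl
  rw [hT, glvPull_mk, glvPull_mk, hT']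
  congr 1
  apply Subtype.ext
  rw [coe_glvPullDegZero, Pic0.coe_degZeroCorrespondence, Pic0.coe_degZeroCorrespondence,
    coe_glvPullDegZero]
  exact glvh_pull_hecke_div N a hℓ hLV4 hα hβ hα' hβ' D D.2

end Main

end Fermat.Agent.G
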