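import Mathlib
import Fermat.Agent.G.Lvl.Defs
import Fermat.Agent.G.Conj.Series

/-!
# Program G, package G/Lvl, leaf (LV4) : the Hecke operator on functions does not depend on the level

For `f ∈ F_ℚ̄(N) ⊆ F_ℚ̄(N a)` and a prime `ℓ ∤ N a`:
`N_{F(N a ℓ)/F(N a)} (f(q^ℓ)) = N_{F(N ℓ)/F(N)} (f(q^ℓ))`.  Both sides have the `q`-expansion given
by the norm series identity `gcj_norm_series` : `V(q^ℓ) = f(q^{ℓ²}) ∏_{i<ℓ} f(ζ^i q)`, and the
product over all `ℓ`-th roots of unity does not depend on the primitive root `ζ`.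
-/

set_option autoImplicit false
set_option linter.unusedSectionVars false

noncomputable section

namespace Fermat.Agent.G

open ModularCurve AlgebraicCurve Fermat.Agent.S24

local notation "Qb" => AlgebraicClosure ℚ

section Formal

variable {R : Type*} [CommRing R] [IsDomain R]

/-- the product `∏_{i<ℓ} u(ζ^i x)` as a product over the `ℓ`-th roots of unity -/
theorem glvhf_prod_eq [DecidableEq Rˣ] {ℓ : ℕ} [NeZero ℓ] {ζ : Rˣ} (hζ : IsPrimitiveRoot ζ ℓ)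
    (u : LaurentSeries R) :
    gcjfProd ℓ ζ u =
      ∏ η ∈ (Finset.range ℓ).image (fun i => ζ ^ i), gcjfRot η u := by
  rw [gcjfProd, Finset.prod_image]
  intro i hi j hj hij
  exact hζ.pow_inj (Finset.mem_range.1 hi) (Finset.mem_range.1 hj) hij

theorem glvhf_image_eq [DecidableEq Rˣ] {ℓ : ℕ} [NeZero ℓ] {ζ₀ ζ₁ : Rˣ} (h₀ : IsPrimitiveRoot ζ₀ ℓ)
    (h₁ : IsPrimitiveRoot ζ₁ ℓ) :
    (Finset.range ℓ).image (fun i => ζ₀ ^ i) = (Finset.range ℓ).image (fun i => ζ₁ ^ i) := by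
  have key : ∀ {ζ ξ : Rˣ}, IsPrimitiveRoot ζ ℓ → IsPrimitiveRoot ξ ℓ →
      (Finset.range ℓ).image (fun i => ζ ^ i) ⊆ (Finset.range ℓ).image (fun i => ξ ^ i) := by
    intro ζ ξ hζ hξ η hη
    obtain ⟨i, _, rfl⟩ := Finset.mem_image.1 hη
    have hmem : ζ ^ i ∈ rootsOfUnity ℓ R := by
      rw [mem_rootsOfUnity, ← pow_mul, mul_comm, pow_mul, hζ.pow_eq_one, one_pow]
    obtain ⟨j, hj, hje⟩ := hξ.eq_pow_of_mem_rootsOfUnity hmem
    exact Finset.mem_image.2 ⟨j, Finset.mem_range.2 hj, hje⟩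
  exact Finset.Subset.antisymm (key h₀ h₁) (key h₁ h₀)

/-- the product `∏_{i<ℓ} u(ζ^i x)` does not depend on the primitive `ℓ`-th root of unity `ζ` -/
theorem glvhf_prod_indep {ℓ : ℕ} [NeZero ℓ] {ζ₀ ζ₁ : Rˣ} (h₀ : IsPrimitiveRoot ζ₀ ℓ)
    (h₁ : IsPrimitiveRoot ζ₁ ℓ) (u : LaurentSeries R) :
    gcjfProd ℓ ζ₀ u = gcjfProd ℓ ζ₁ u := by
  classical
  rw [glvhf_prod_eq h₀, glvhf_prod_eq h₁, glvhf_image_eq h₀ h₁]

end Formal

section Leaf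

variable (N a : ℕ) [NeZero N] [NeZero a]

/-- (LV4) THE HECKE OPERATOR ON FUNCTIONS DOES NOT DEPEND ON THE LEVEL. -/
theorem glv_heckeFun {ℓ : ℕ} [Fact ℓ.Prime] (hℓ : ¬ ℓ ∣ N * a) (f : modularFunctionFieldBar N) :
    haveI : NeZero ℓ := ⟨(Fact.out : ℓ.Prime).ne_zero⟩
    gHeckeFun (N * a) ℓ (heckeAlphaBar Qb N a f) = heckeAlphaBar Qb N a (gHeckeFun N ℓ f) := by
  have : NeZero ℓ := ⟨(Fact.out : ℓ.Prime).ne_zero⟩
  have hℓN : ¬ ℓ ∣ N := fun hd => hℓ (Dvd.dvd.mul_right hd a)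
  obtain ⟨ζ₀, h₀, hs₀⟩ := gcj_norm_series (N * a) hℓ
  obtain ⟨ζ₁, h₁, hs₁⟩ := gcj_norm_series N hℓN
  apply Subtype.ext
  apply qExpand_injective ℓ
  rw [hs₀ (heckeAlphaBar Qb N a f), coe_heckeAlphaBar, coe_heckeAlphaBar, hs₁ f,
    glvhf_prod_indep h₀ h₁]

end Leaf

end Fermat.Agent.G
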