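import Mathlib
import Fermat.Agent.G.Lvl.HeckeAux
import Fermat.Agent.G.Lvl.HeckeFun

/-!
# Program G, package G/Lvl, leaf (LV5) : `α^* T_ℓ = T_ℓ α^*` on `Pic⁰` (row 589)

`glv_pull_hecke` VERBATIM from `G/Lvl/Spec.lean` : `Lvl/HeckeAux.lean` (vanishing principle, with
(LV4) as a hypothesis) + `Lvl/HeckeFun.lean` ((LV4) `glv_heckeFun`, helper6).
-/

set_option autoImplicit false
set_option linter.unusedSectionVars false
set_option linter.unusedVariables false
set_option synthInstance.maxHeartbeats 400000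

noncomputable section

namespace Fermat.Agent.G

open ModularCurve AlgebraicCurve IsLocalRing Fermat.Agent.S24

local notation "Qb" => AlgebraicClosure ℚ

section Leaves

variable (N a : ℕ) [NeZero N] [NeZero a]

/-- (LV5) `α^*` commutes with `T_ℓ`, `ℓ ∤ N a` (vanishing principle). -/
theorem glv_pull_hecke {ℓ : ℕ} (hℓ : ℓ.Prime) (hℓN : ¬ ℓ ∣ N * a) (x : JZero N) :
    glvPull N a (heckeOperatorBar N ⟨ℓ, hℓ⟩ x) =
      heckeOperatorBar (N * a) ⟨ℓ, hℓ⟩ (glvPull N a x) := by
  haveI : Fact ℓ.Prime := ⟨hℓ⟩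
  exact glvh_pull_hecke_of N a hℓ (fun f => glv_heckeFun N a hℓN f) x

end Leaves

end Fermat.Agent.G

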