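import Mathlib
import Fermat.Agent.G.Lvl.Defs

/-!
# Program G, package G/Lvl, leaf (LV2) : `α_* α^* = [F(N a) : F(N)]` on divisors
-/

set_option autoImplicit false
set_option linter.unusedSectionVars false
set_option linter.style.haveILetI false

noncomputable section

namespace Fermat.Agent.G

open ModularCurve AlgebraicCurve Fermat.Agent.S24

local notation "Qb" => AlgebraicClosure ℚ

section Abstract

variable {K F F' : Type*} [Field K] [Field F] [Field F'] [Algebra K F] [Algebra K F']
  [Algebra F F'] [IsScalarTower K F F'] [Algebra.IsIntegral F F'] [HasPrincipalDivisors K F']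

/-- `π_* π^* = [F' : F]` on divisors, from `∑ e f = n`. -/
theorem glvp_push_pull_abs [SumRamificationInertia K F F'] (D : Divisor K F) :
    Divisor.pushforward F (Divisor.pullback F' D) = Module.finrank F F' • D := by
  induction D using Finsupp.induction_linear with
  | zero => simp
  | add D E hD hE => rw [map_add, map_add, hD, hE, smul_add]
  | single v n =>
    rw [Divisor.pullback_single, map_sum]
    have h1 : ∀ w ∈ v.fiber F',
        Divisor.pushforward F (Finsupp.single w (n * (w.ramificationIndex F : ℤ))) =
          Finsupp.single v (n * ((w.ramificationIndex F : ℤ) * (w.inertiaDeg F : ℤ))) := by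
      intro w hw
      rw [Divisor.pushforward_single, Place.mem_fiber.mp hw, mul_assoc]
    rw [Finset.sum_congr rfl h1, ← Finsupp.single_finsetSum, ← Finset.mul_sum,
      SumRamificationInertia.sum_ramificationIndex_mul_inertiaDeg (K := K) (F := F) (F' := F') v,
      ← natCast_zsmul, Finsupp.smul_single, smul_eq_mul, mul_comm]

end Abstract

section Leaf

variable (N a : ℕ) [NeZero N] [NeZero a]

/-- (LV2) `α_* α^* = [F(N a) : F(N)]` on divisors. -/
theorem glv_push_pull (D : Divisor Qb (modularFunctionFieldBar N)) :
    glvPushDiv N a (glvPullDiv N a D) = finrankAlong Qb (heckeAlphaBar Qb N a) • D := by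
  haveI := gff_hasPrincipalDivisors (N * a)
  letI := algebraAlong (heckeAlphaBar Qb N a)
  haveI := isScalarTower_along (heckeAlphaBar Qb N a)
  haveI := isIntegral_along (heckeAlphaBar Qb N a) (gff_alpha_integral N a)
  haveI : Module.Finite (modularFunctionFieldBar N) (modularFunctionFieldBar (N * a)) :=
    gff_alpha_finite N a
  haveI : SumRamificationInertia Qb (modularFunctionFieldBar N)
      (modularFunctionFieldBar (N * a)) :=
    gffa_sumRamificationInertia (F' := modularFunctionFieldBar (N * a)) (isSepGen_jBar N)
  exact glvp_push_pull_abs (K := Qb) (F := modularFunctionFieldBar N)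
    (F' := modularFunctionFieldBar (N * a)) D

end Leaf

end Fermat.Agent.G
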