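import Mathlib
import Fermat.Agent.G.Lvl.Defs
import Fermat.Agent.G.Lvl.PushPull
import Fermat.Agent.G.Lvl.Finrank
import Fermat.Agent.G.Lvl.HeckeFun
import Fermat.Agent.G.Lvl.Hecke
import Fermat.Agent.G.Asm.HeckeGalois
import Fermat.Agent.G.Kron.Main
import Fermat.Agent.S18

/-!
# Program G, package G/Lvl : assembly

GOAL (`glv_red`): for primes `a ≠ ℓ`, `a ∤ N`, `a + 1` a power of `ℓ` (i.e. `(ℓ, a) = (2, 3), (3, 2)`),
`ℓ ∤ N p`, `𝔸` over `ℓ`, and GIVEN `ReductionInputsModL 𝔸 (N a)`, the additive map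
`red := reductionModL 𝔸 (N a) ∘ α^* : J₀(N) → J₀(N a)_k` kills inertia (R1), kills
`σ² x - T_ℓ σ x + ℓ x` for every Frobenius `σ` (R2) and is injective on `p`-power torsion (R3) :
exactly the input of `g37_specializationExists_of_red`.

LEAVES: (LV1) Galois-equivariance of `α^*` (here); (LV2) `α_* α^* = [F(N a) : F(N)]` on divisors
(`PushPull.lean`); (LV3) `[F(N a) : F(N)] = a + 1` (`Finrank.lean`); (LV4) the Hecke operators on
FUNCTIONS at the levels `N` and `N a` agree on `F(N)` (`HeckeFun.lean`); (LV5) `α^* T_ℓ = T_ℓ α^*` on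
`Pic⁰` (`HeckeAux.lean`, `Hecke.lean`).
-/

set_option autoImplicit false
set_option linter.unusedSectionVars false
set_option linter.unusedVariables false
set_option synthInstance.maxHeartbeats 400000

noncomputable section

namespace Fermat.Agent.G

open ModularCurve AlgebraicCurve IsLocalRing Fermat.Agent.S24

local notation "Qb" => AlgebraicClosure ℚ

section Top

variable (N a : ℕ) [NeZero N] [NeZero a]

/-- (LV1) `α^*` commutes with the Galois action. -/
theorem glv_pull_galois (σ : Qb ≃ₐ[ℚ] Qb) (x : JZero N) :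
    glvPull N a (σ • x) = σ • glvPull N a x := by
  obtain ⟨D, rfl⟩ := Pic0.mk_surjective x
  rw [galois_smul_pic0_def, SemilinearAut.pic0_smul_mk, glvPull_mk, glvPull_mk,
    galois_smul_pic0_def, SemilinearAut.pic0_smul_mk]
  congr 1
  apply Subtype.ext
  rw [coe_glvPullDegZero, SemilinearAut.coe_degZeroSMulHom, SemilinearAut.coe_degZeroSMulHom,
    coe_glvPullDegZero]
  have := gff_hasPrincipalDivisors (N * a)
  exact gasmhg_pullbackAlong_smul (heckeAlphaBar Qb N a) (gff_alpha_integral N a)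
    (gasmhg_alpha_intertwines N a σ) _

/-- the kernel of `α^*` is killed by the degree. -/
theorem glv_pull_eq_zero (x : JZero N) (hx : glvPull N a x = 0) :
    finrankAlong Qb (heckeAlphaBar Qb N a) • x = 0 := by
  obtain ⟨D, rfl⟩ := Pic0.mk_surjective x
  rw [glvPull_mk] at hx
  have hx1 := (QuotientAddGroup.eq_zero_iff _).mp hx
  rw [AddSubgroup.mem_addSubgroupOf, coe_glvPullDegZero] at hx1
  have := gff_hasPrincipalDivisors (N * a)
  have hpush : glvPushDiv N a (glvPullDiv N a (D : Divisor Qb (modularFunctionFieldBar N))) ∈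
      Divisor.principal (K := Qb) (F := modularFunctionFieldBar N) :=
    Divisor.isPrincipal_pushforwardAlong (heckeAlphaBar Qb N a) (gff_alpha_integral N a)
      (gff_alpha_finite N a)
      (gffa_along_normFormula (heckeAlphaBar Qb N a) (gff_alpha_finite N a) (isSepGen_jBar N)) hx1
  rw [glv_push_pull] at hpush
  have h0 : finrankAlong Qb (heckeAlphaBar Qb N a) • Pic0.mk D =
      Pic0.mk (finrankAlong Qb (heckeAlphaBar Qb N a) • D) := rfl
  rw [h0]
  apply (QuotientAddGroup.eq_zero_iff _).mpr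
  rw [AddSubgroup.mem_addSubgroupOf]
  simpa using hpush

/-- THE TOP THEOREM of the package : the three properties of
`red = reductionModL 𝔸 (N a) ∘ α^*`. -/
theorem glv_red (p : ℕ) {ℓ : ℕ} (hℓ : ℓ.Prime) (ha : a.Prime) (haN : ¬ a ∣ N)
    (hpow : ∃ s : ℕ, a + 1 = ℓ ^ s) (hℓa : ℓ ≠ a) (hℓNp : ¬ ℓ ∣ N * p)
    (A : ValuationSubring Qb) (hA : A.LiesOverPrime ℓ)
    (h : ReductionInputsModL A (N * a)) :
    (∀ σ ∈ A.inertiaSubgroupIn ℚ, ∀ x : JZero N,
      reductionModL A (N * a) (glvPull N a (σ • x)) = reductionModL A (N * a) (glvPull N a x)) ∧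
    (∀ σ : Qb ≃ₐ[ℚ] Qb, A.IsFrobeniusAt σ ℓ → ∀ x : JZero N,
      reductionModL A (N * a)
        (glvPull N a (σ • σ • x - heckeOperatorBar N ⟨ℓ, hℓ⟩ (σ • x) + ℓ • x)) = 0) ∧
    (∀ x : JZero N, (∃ n : ℕ, p ^ n • x = 0) →
      reductionModL A (N * a) (glvPull N a x) = 0 → x = 0) := by
  have : Fact ℓ.Prime := ⟨hℓ⟩
  have : NeZero ℓ := ⟨hℓ.ne_zero⟩
  have hℓN : ¬ ℓ ∣ N := fun hd => hℓNp (Dvd.dvd.mul_right hd p)
  have hℓp : ¬ ℓ ∣ p := fun hd => hℓNp (Dvd.dvd.mul_left hd N)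
  have hℓa' : ¬ ℓ ∣ a := fun hd => hℓa ((Nat.prime_dvd_prime_iff_eq hℓ ha).mp hd)
  have hℓNa : ¬ ℓ ∣ N * a := fun hd => (hℓ.dvd_mul.mp hd).elim hℓN hℓa'
  refine ⟨fun σ hσ x => ?_, fun σ hσ x => ?_, fun x hx hred => ?_⟩
  · rw [glv_pull_galois]
    exact ghr_I3 (N * a) ℓ hℓ hℓNa A hA h σ hσ _
  · have hcomm : glvPull N a (σ • σ • x - heckeOperatorBar N ⟨ℓ, hℓ⟩ (σ • x) + ℓ • x) =
        σ • σ • glvPull N a x - heckeOperatorBar (N * a) ⟨ℓ, hℓ⟩ (σ • glvPull N a x) +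
          ℓ • glvPull N a x := by
      rw [map_add, map_sub, map_nsmul, glv_pull_galois, glv_pull_galois,
        glv_pull_hecke N a hℓ hℓNa, glv_pull_galois]
    rw [hcomm]
    exact ghr_I4 (N * a) ℓ hℓ hℓNa A hA h (gff_heckeInputs (N * a) ℓ hℓ) σ hσ _
  · obtain ⟨n, hn⟩ := hx
    obtain ⟨s, hs⟩ := hpow
    have hm : ¬ ℓ ∣ p ^ n := fun hd => hℓp (hℓ.dvd_of_dvd_pow hd)
    have hz : glvPull N a x = 0 :=
      Fermat.Agent.S18.result (N * a) hℓNa A hA h (p ^ n) hm (glvPull N a x)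
        (by rw [← map_nsmul, hn, map_zero]) hred
    have hdeg := glv_pull_eq_zero N a x hz
    rw [glv_finrank N a ha haN, hs] at hdeg
    -- `ℓ^s` and `p^n` are coprime
    have hcop : Nat.Coprime (ℓ ^ s) (p ^ n) :=
      Nat.Coprime.pow_left s ((Nat.Prime.coprime_iff_not_dvd hℓ).mpr hm)
    have hd1 : addOrderOf x ∣ ℓ ^ s := addOrderOf_dvd_of_nsmul_eq_zero hdeg
    have hd2 : addOrderOf x ∣ p ^ n := addOrderOf_dvd_of_nsmul_eq_zero hn
    have hd : addOrderOf x ∣ 1 := by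
      rw [← hcop.gcd_eq_one]
      exact Nat.dvd_gcd hd1 hd2
    exact AddMonoid.addOrderOf_eq_one_iff.mp (Nat.dvd_one.mp hd)

end Top

end Fermat.Agent.G
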